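import Fermat.Agent.Curve.Riemann
import Fermat.Agent.Curve.Extension

/-!
# Bounded maps on divisors killing the principal divisors

Over an algebraically closed field a bounded integer function on the places orthogonal to all
principal divisors is constant: a multiple `n (v - w)` plus a fixed positive divisor of large degree
is equivalent to an effective divisor of the same degree, so the difference of the values at `v` and
`w` is bounded by a constant over `n`.
-/

set_option autoImplicit false

open AlgebraicCurve

noncomputable section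

namespace FermatAgent.Curve.EichlerShimura

variable {K F : Type*} [Field K] [IsAlgClosed K] [Field F] [Algebra K F] [IsFF K F]

omit [IsFF K F] [IsAlgClosed K] in
theorem abs_sum_le {B : ℤ} {c : Place K F → ℤ} (hc : ∀ v, |c v| ≤ B) {E : Divisor K F}
    (hE : 0 ≤ E) : |E.sum fun v n => n * c v| ≤ E.sum (fun _ n => n) * B := by
  rw [Finsupp.sum, Finsupp.sum, Finset.sum_mul]
  refine (Finset.abs_sum_le_sum_abs _ _).trans (Finset.sum_le_sum fun v _ => ?_)
  rw [abs_mul, abs_of_nonneg (hE v)]
  exact mul_le_mul_of_nonneg_left (hc v) (hE v)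

/-- An effective divisor is bounded by its degree. -/
theorem apply_le_degree {E : Divisor K F} (hE : 0 ≤ E) (v : Place K F) :
    E v ≤ Divisor.degree E := by
  classical
  have h : Finsupp.single v (E v) ≤ E := fun w => by
    rw [Finsupp.single_apply]
    split_ifs with hw
    · rw [hw]
    · exact hE w
  have := degree_mono h
  rwa [Divisor.degree_single, deg_eq_one, Nat.cast_one, mul_one] at this

/-- **A bounded function orthogonal to the principal divisors is constant.** -/
theorem apply_eq_of_bounded {B : ℤ} {c : Place K F → ℤ} (hc : ∀ v, |c v| ≤ B)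
    (h : ∀ D : Divisor K F, D.IsPrincipal → D.sum (fun v n => n * c v) = 0) (v w : Place K F) :
    c v = c w := by
  classical
  let φ : Divisor K F →+ ℤ := Finsupp.liftAddHom fun u => AddMonoidHom.mulRight (c u)
  have hφ : ∀ D, φ D = D.sum fun u n => n * c u := fun D => rfl
  set m : ℕ := (rGenus K F).toNat
  have hB : 0 ≤ B := (abs_nonneg _).trans (hc v)
  have key : ∀ n : ℕ, (n : ℤ) * |c v - c w| ≤ 2 * m * B := by
    intro n
    set D : Divisor K F := (Finsupp.single v (n : ℤ) - Finsupp.single w (n : ℤ)) +
      Finsupp.single w (m : ℤ) with hD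
    have hdeg : Divisor.degree D = (m : ℤ) := by
      rw [hD, map_add, map_sub, Divisor.degree_single, Divisor.degree_single,
        Divisor.degree_single, deg_eq_one, deg_eq_one, sub_self, zero_add, Nat.cast_one, mul_one]
    have hrr : 0 < rrDim D := by
      have h1 := rrDef_le_rGenus (K := K) (F := F) D
      have h2 : rGenus K F ≤ (m : ℤ) := Int.self_le_toNat _
      rw [rrDef, hdeg] at h1
      omega
    obtain ⟨u, hu, hle⟩ := exists_le_sub_divisorOf (D := (0 : Divisor K F)) (E := D)
      (by rwa [sub_zero])
    set E : Divisor K F := D + divisorOf u with hE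
    have hE0 : 0 ≤ E := fun x => by
      have := hle x
      simp only [hE, Finsupp.add_apply, Finsupp.sub_apply, Finsupp.coe_zero,
        Pi.zero_apply] at this ⊢
      omega
    have hprin : φ (divisorOf u) = 0 :=
      h _ ⟨u, hu, fun x => divisorOf_apply u x⟩
    have hEdeg : Divisor.degree E = (m : ℤ) := by
      rw [hE, map_add, degree_divisorOf, add_zero, hdeg]
    have h1 : |φ E| ≤ (m : ℤ) * B := by
      rw [hφ, ← hEdeg, degree_eq_sum]
      exact abs_sum_le hc hE0
    have h2 : φ E = (n : ℤ) * (c v - c w) + (m : ℤ) * c w := by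
      rw [hE, map_add, hprin, add_zero, hD, map_add, map_sub]
      simp only [φ, Finsupp.liftAddHom_apply_single, AddMonoidHom.coe_mulRight]
      ring
    have h3 : |(m : ℤ) * c w| ≤ (m : ℤ) * B := by
      rw [abs_mul, Nat.abs_cast]
      exact mul_le_mul_of_nonneg_left (hc w) (Nat.cast_nonneg _)
    calc (n : ℤ) * |c v - c w| = |φ E - (m : ℤ) * c w| := by
          rw [h2, add_sub_cancel_right, abs_mul, Nat.abs_cast]
      _ ≤ |φ E| + |(m : ℤ) * c w| := abs_sub _ _
      _ ≤ 2 * m * B := by linarith
  by_contra hne
  have h1 : (1 : ℤ) ≤ |c v - c w| := Int.one_le_abs (sub_ne_zero.mpr hne)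
  have h2 := key ((2 * m * B).toNat + 1)
  have h3 : ((2 * (m : ℤ) * B).toNat : ℤ) = 2 * m * B := Int.toNat_of_nonneg (by positivity)
  push_cast at h2
  nlinarith [mul_le_mul_of_nonneg_left h1 (show (0 : ℤ) ≤ 2 * m * B + 1 by positivity)]

/-- **A bounded map on divisors killing the principal divisors kills degree zero.** -/
theorem eq_zero_of_bounded {ι : Type*} (δ : Divisor K F →+ (ι →₀ ℤ)) (B : ℤ)
    (hB : ∀ (v : Place K F) (Q : ι), |δ (Finsupp.single v 1) Q| ≤ B)
    (h : ∀ D : Divisor K F, D.IsPrincipal → δ D = 0) {D : Divisor K F}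
    (hD : Divisor.degree D = 0) : δ D = 0 := by
  ext Q
  have hval : ∀ D : Divisor K F, δ D Q = D.sum fun v n => n * δ (Finsupp.single v 1) Q := by
    intro D
    conv_lhs => rw [← Finsupp.sum_single D]
    rw [map_finsuppSum, Finsupp.sum_apply]
    refine Finsupp.sum_congr fun v _ => ?_
    conv_lhs => rw [← mul_one (D v), ← smul_eq_mul, ← Finsupp.smul_single, map_zsmul]
    rfl
  rw [hval, Finsupp.coe_zero, Pi.zero_apply]
  rcases D.support.eq_empty_or_nonempty with he | ⟨w, -⟩
  · rw [Finsupp.sum, he, Finset.sum_empty]
  · rw [Finsupp.sum, Finset.sum_congr rfl fun v _ => by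
      rw [apply_eq_of_bounded (fun v => hB v Q) (fun D hD => by
        rw [← hval, h D hD, Finsupp.coe_zero, Pi.zero_apply]) v w], ← Finset.sum_mul,
      show ∑ v ∈ D.support, D v = 0 from (degree_eq_sum D).symm.trans hD, zero_mul]

end FermatAgent.Curve.EichlerShimura
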