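import Fermat.Agent.Curve.EichlerShimura.Series
import Fermat.Agent.Curve.ModularGenus
import Fermat.Agent.Period.Gamma0Count

/-!
# The cusp embeddings of the level `N ℓ` field over the level `N` field

In the coordinate of width `N ℓ` there are `ℓ + 1` embeddings over the field of level `N`: the
expansion at infinity, and those of the `ℓ` translates carrying `ℓ τ` to `(τ + b) / ℓ`.
-/

set_option autoImplicit false

noncomputable section

open UpperHalfPlane hiding I
open scoped MatrixGroups Real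
open CongruenceSubgroup (Gamma0 Gamma0_mem)
open ModularCurve (qExpand jqModC coeffMap)

namespace FermatAgent.Curve.EichlerShimura

variable (K : Type*) [Field K]

/-- A generator of the field. -/
def genElt (N : ℕ) (d : JIdx N) : jField K N := toJField K N (MvPolynomial.X d)

/-- The series of a generator. -/
theorem coe_genElt (N : ℕ) (d : JIdx N) :
    (genElt K N d : LaurentSeries K) = qExpand K (d : ℕ) (jqModC K) := by
  rw [genElt, coe_toJField, evL, MvPolynomial.aeval_X]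
  rfl

/-- Algebra maps out of the field agree when they agree on the generators. -/
theorem algHom_ext_genElt {N : ℕ} {L : Type*} [Field L] [Algebra K L]
    {φ ψ : jField K N →ₐ[K] L} (h : ∀ d, φ (genElt K N d) = ψ (genElt K N d)) : φ = ψ :=
  algHom_ext_jField fun P => DFunLike.congr_fun
    (MvPolynomial.algHom_ext (A := L) (f := φ.comp (toJField K N)) (g := ψ.comp (toJField K N)) h) P

variable {K} [Algebra K ℂ]

/-- The embedding of a generator is the expansion of the translated `j(d τ)`. -/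
theorem emb_genElt {M : ℕ} {t : ℍ → ℂ} (hc : GenCoord M t) (g : SL(2, ℤ)) (e : JIdx M)
    {S : LaurentSeries ℂ} (h : HasLoc t (fun τ => jFun (scalePt (e : ℕ) (g • τ))) S) :
    emb (K := K) hc g (genElt K M e) = S := by
  rw [genElt, emb_toJField]
  refine phi_eq_of_hasLoc hc g ?_
  simpa [evF, jGenF] using h

/-- The series of `j(d τ)` does not depend on the coefficient field. -/
theorem coeffMapC_qExpand_jqModC (d : ℕ) [NeZero d] :
    coeffMapC K (qExpand K d (jqModC K)) = qExpand ℂ d (jqModC ℂ) := by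
  rw [coeffMapC_apply, ModularCurve.coeffMap_qExpand, ModularCurve.coeffMap_jqModC]

/-- `j (d τ)` in the coordinate of width `M`. -/
theorem hasLoc_jFun_scalePt (d M : ℕ) [NeZero d] [NeZero M] :
    HasLoc (qw (M : ℕ)) (fun τ => jFun (scalePt d τ)) (qExpand ℂ M (qExpand ℂ d (jqModC ℂ))) := by
  have h := hasLoc_jFun.pullback (t' := qw (M : ℕ)) (scalePt d) norm_one one_ne_zero (d * M)
    fun τ => by rw [scalePt, qw_affinePt d 1 M 0]; simp [one_mul]
  rw [rotate_one] at h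
  rw [ModularCurve.qExpand_qExpand]
  rw [show qExpand ℂ (M * d) (jqModC ℂ) = qExpand ℂ (d * M) (jqModC ℂ) by
    congr 2; exact mul_comm _ _]
  exact h

/-- `exp (2 π i / ℓ)`. -/
def zC (ℓ : ℕ) : ℂ := Complex.exp (2 * π * Complex.I / ℓ)

/-- `exp (2πi/ℓ)` is nonzero. -/
theorem zC_ne_zero (ℓ : ℕ) : zC ℓ ≠ 0 := Complex.exp_ne_zero _

/-- `j (d (τ + b) / ℓ)` in the coordinate of width `N ℓ`. -/
theorem hasLoc_jFun_translate (d ℓ N : ℕ) [NeZero d] [NeZero ℓ] [NeZero N] (b : ℕ) :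
    HasLoc (qw ((N * ℓ : ℕ) : ℝ)) (fun τ => jFun (scalePt d (affinePt 1 ℓ b τ)))
      (qExpand ℂ N (rotate (pow_ne_zero b (zC_ne_zero ℓ)) (qExpand ℂ d (jqModC ℂ)))) := by
  have hc : ‖(zC ℓ ^ b) ^ d‖ = 1 := by
    rw [norm_pow, norm_pow, zC, Complex.norm_exp]
    simp [Complex.div_natCast_re]
  have h := hasLoc_jFun.pullback (t' := qw ((N * ℓ : ℕ) : ℝ))
    (fun τ => scalePt d (affinePt 1 ℓ (b : ℤ) τ)) hc
    (pow_ne_zero d (pow_ne_zero b (zC_ne_zero ℓ))) (N * d) fun τ => by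
      have hpt : scalePt d (affinePt 1 ℓ (b : ℤ) τ) = affinePt d ℓ ((d : ℤ) * b) τ := by
        apply UpperHalfPlane.ext
        rw [coe_scalePt, coe_affinePt, coe_affinePt]
        push_cast
        ring
      rw [hpt, qw_affinePt d ℓ N, zC, ← Complex.exp_nat_mul, ← Complex.exp_nat_mul,
        mul_comm ℓ N, mul_comm d N]
      congr 2
      push_cast
      ring
  rw [rotate_qExpand, ModularCurve.qExpand_qExpand]
  exact h

/-- An element of `Γ₀(N)` carrying `ℓ τ` to `(τ + b) / ℓ` up to `Γ₀(N)`. -/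
theorem exists_translate (N ℓ : ℕ) [NeZero ℓ] (hℓN : Nat.Coprime ℓ N) (b : ℕ) :
    ∃ g γ : SL(2, ℤ), g ∈ Gamma0 N ∧ γ ∈ Gamma0 N ∧
      ∀ τ : ℍ, scalePt ℓ (g • τ) = γ • affinePt 1 ℓ b τ := by
  obtain ⟨u, v, huv⟩ : IsCoprime (ℓ : ℤ) N := Nat.isCoprime_iff_coprime.mpr hℓN
  -- `w ≡ b N` modulo `ℓ` and `w ≡ 1` modulo `N`
  set w : ℤ := (b : ℤ) * N + (1 - (b : ℤ) * N) * u * ℓ with hw
  have hw1 : (N : ℤ) ∣ w - 1 :=
    ⟨-((1 - (b : ℤ) * N) * v), by rw [hw]; linear_combination (1 - (b : ℤ) * N) * huv⟩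
  obtain ⟨c, hc⟩ := hw1
  let g : SL(2, ℤ) := ⟨!![1, c; N, w], by
    rw [Matrix.det_fin_two]
    simp
    linear_combination hc⟩
  let γ : SL(2, ℤ) := ⟨!![(ℓ : ℤ), c - b; N, (1 - (b : ℤ) * N) * u], by
    rw [Matrix.det_fin_two]
    simp
    linear_combination hc - hw⟩
  refine ⟨g, γ, Gamma0_mem.mpr (by simp [g]),
    Gamma0_mem.mpr (by simp [γ]), fun τ => ?_⟩
  refine scalePt_smul ℓ g γ 1 ℓ b ?_ ?_ ?_ ?_ τ
  · simp [g, γ]
  · simp [g, γ]
  · simp [g, γ]; ring
  · simp [g, γ, hw]; ring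

/-- `ψ(N ℓ) = ψ(N) (ℓ + 1)` for a prime `ℓ ∤ N`. -/
theorem dedekindPsi_mul_prime {N ℓ : ℕ} (hℓ : ℓ.Prime) (h : Nat.Coprime ℓ N) :
    ModularCurve.dedekindPsi (N * ℓ) = ModularCurve.dedekindPsi N * (ℓ + 1) := by
  rw [Period.dedekindPsi_isMultiplicative (Nat.Coprime.symm h)]
  have := Period.dedekindPsi_prime_pow hℓ 0
  rw [zero_add, pow_one, pow_zero] at this
  rw [this]

end FermatAgent.Curve.EichlerShimura
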