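import Fermat.Agent.Curve.EichlerShimura.Defect
import Fermat.Agent.Curve.Red.Inputs
import Fermat.Agent.GaloisBasic.Frobenius
import Fermat.Prelude.Def_ModularCurve_HeckeModule

/-!
# Reduction of `X₀(N)` and the decomposition group

The coefficientwise action of a residual automorphism on the residual field, and the equivariance
of the reduction of divisors of degree zero.
-/

set_option autoImplicit false

open AlgebraicCurve IsLocalRing
open ModularCurve (coeffMap qExpand jqModC modularFunctionFieldFullC modularFunctionFieldBar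
  arithmeticGalois placeReductionModL isPlaceReductionModL_placeReductionModL)

noncomputable section

namespace FermatAgent.Curve.EichlerShimura

attribute [local instance 10000] SubalgebraClass.toAlgebra
attribute [-instance] IsScalarTower.of_algHom RingHom.Finite.instFinite

local notation "Qb" => AlgebraicClosure ℚ

section CoeffAut

variable {k : Type*} [Field k] (N : ℕ)

theorem coeffMap_mem_fullC (f : k →+* k) {x : LaurentSeries k}
    (hx : x ∈ modularFunctionFieldFullC k N) :
    coeffMap f x ∈ modularFunctionFieldFullC k N := by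
  change x ∈ IntermediateField.adjoin k (ModularCurve.divisorExpansionsC k N) at hx
  induction hx using IntermediateField.adjoin_induction with
  | mem y hy =>
    obtain ⟨d, hd0, hd, rfl⟩ := hy
    have := hd0
    rw [ModularCurve.coeffMap_qExpand, ModularCurve.coeffMap_jqModC]
    exact ModularCurve.jqModCd_mem_full k N hd
  | algebraMap a =>
    rw [ModularCurve.coeffMap_algebraMap]; exact IntermediateField.algebraMap_mem _ _
  | add y z _ _ hy hz => rw [map_add]; exact add_mem hy hz
  | inv y _ hy => rw [map_inv₀]; exact inv_mem hy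
  | mul y z _ _ hy hz => rw [map_mul]; exact mul_mem hy hz

/-- The coefficientwise action on the residual field. -/
def coeffRingEquiv (φ : k ≃+* k) :
    modularFunctionFieldFullC k N ≃+* modularFunctionFieldFullC k N where
  toFun x := ⟨coeffMap (φ : k →+* k) x, coeffMap_mem_fullC N _ x.2⟩
  invFun x := ⟨coeffMap (φ.symm : k →+* k) x, coeffMap_mem_fullC N _ x.2⟩
  left_inv x := Subtype.ext <| by
    show coeffMap (φ.symm : k →+* k) (coeffMap (φ : k →+* k) x) = x
    rw [ModularCurve.coeffMap_coeffMap, φ.symm_comp, ModularCurve.coeffMap_id]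
  right_inv x := Subtype.ext <| by
    show coeffMap (φ : k →+* k) (coeffMap (φ.symm : k →+* k) x) = x
    rw [ModularCurve.coeffMap_coeffMap, φ.comp_symm, ModularCurve.coeffMap_id]
  map_mul' x y := Subtype.ext (map_mul (coeffMap (φ : k →+* k)) x.1 y.1)
  map_add' x y := Subtype.ext (map_add (coeffMap (φ : k →+* k)) x.1 y.1)

/-- The semilinear automorphism of the residual field given by `φ`. -/
def coeffAut (φ : k ≃+* k) : SemilinearAut k (modularFunctionFieldFullC k N) :=
  ⟨(coeffRingEquiv N φ, φ), fun a => Subtype.ext (ModularCurve.coeffMap_algebraMap (φ : k →+* k) a)⟩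

/-- The action on series is coefficientwise. -/
theorem coe_coeffAut_smul (φ : k ≃+* k) (x : modularFunctionFieldFullC k N) :
    ((coeffAut N φ • x : modularFunctionFieldFullC k N) : LaurentSeries k) =
      coeffMap (φ : k →+* k) (x : LaurentSeries k) := rfl

/-- The inverse acts by the inverse on coefficients. -/
theorem coe_coeffAut_inv_smul (φ : k ≃+* k) (x : modularFunctionFieldFullC k N) :
    (((coeffAut N φ)⁻¹ • x : modularFunctionFieldFullC k N) : LaurentSeries k) =
      coeffMap (φ.symm : k →+* k) (x : LaurentSeries k) := rfl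

end CoeffAut

/-- The translate of a principal divisor is the divisor of the translate. -/
theorem divisor_smul_apply_ord {K F : Type*} [Field K] [Field F] [Algebra K F]
    (g : SemilinearAut K F) {y : F} {a : Divisor K F} (ha : ∀ R, a R = R.ord y) (Q : Place K F) :
    (g • a) Q = Q.ord (g • y) := by
  have key := SemilinearAut.ord_smul g (g⁻¹ • Q) y
  rw [smul_inv_smul] at key
  rw [SemilinearAut.divisor_smul_apply, ha, key]

theorem abs_sub_single_le {ι : Type*} {x u v : ι →₀ ℤ} (hx : x = u - v) {a b : ι}
    (hu : u = Finsupp.single a 1) (hv : v = Finsupp.single b 1) (Q : ι) : |x Q| ≤ 2 := by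
  classical
  subst hx hu hv
  rw [Finsupp.sub_apply]
  refine (abs_sub _ _).trans ?_
  rw [Finsupp.single_apply, Finsupp.single_apply]
  split_ifs <;> norm_num

variable {A : ValuationSubring Qb} {N : ℕ}

local notation "k" => ResidueField A
local notation "Fb" => modularFunctionFieldFullC (ResidueField A) N
local notation "Eb" => modularFunctionFieldBar N

variable (h : ModularCurve.ReductionInputsModL A N)

/-- The reduction of divisors. -/
def redDiv : Divisor Qb Eb →+ Divisor k Fb :=
  Finsupp.mapDomain.addMonoidHom (placeReductionModL h)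

/-- The reduction of a place. -/
theorem redDiv_single (P : Place Qb Eb) (n : ℤ) :
    redDiv h (Finsupp.single P n) = Finsupp.single (placeReductionModL h P) n :=
  Finsupp.mapDomain_single

/-- The divisor of an integral expansion reduces to the divisor of its reduction. -/
theorem redDiv_apply_ord {s : LaurentSeries A} (hs : coeffMap A.subtype s ∈ Eb)
    (hsk : coeffMap (residue A) s ∈ Fb) (hne : coeffMap (residue A) s ≠ 0) {D : Divisor Qb Eb}
    (hD : ∀ P, D P = P.ord (⟨coeffMap A.subtype s, hs⟩ : Eb)) (Q : Place k Fb) :
    redDiv h D Q = Q.ord (⟨coeffMap (residue A) s, hsk⟩ : Fb) :=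
  (isPlaceReductionModL_placeReductionModL h).2 s hs hsk hne D hD Q

include h in
/-- A map killing the divisors of integral expansions kills the principal divisors. -/
theorem eq_zero_of_integral {G : Type*} [AddCommGroup G] (δ : Divisor Qb Eb →+ G)
    (hδ : ∀ (s : LaurentSeries A) (hs : coeffMap A.subtype s ∈ Eb),
      coeffMap (residue A) s ∈ Fb → coeffMap (residue A) s ≠ 0 →
        ∀ D : Divisor Qb Eb, (∀ P, D P = P.ord (⟨coeffMap A.subtype s, hs⟩ : Eb)) → δ D = 0)
    {D : Divisor Qb Eb} (hD : D.IsPrincipal) : δ D = 0 := by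
  have hgen : ModularCurve.PrincipalGeneratedByIntegral A (residue A) N := (Exists.choose_spec h).2
  have hD' := hgen (Divisor.mem_principal.mpr hD)
  clear hD
  induction hD' using AddSubgroup.closure_induction with
  | mem E hE =>
    obtain ⟨s, hs, hsk, hne, hD⟩ := hE
    exact hδ s hs hsk hne E hD
  | zero => exact map_zero δ
  | add E E' _ _ hE hE' => rw [map_add, hE, hE', add_zero]
  | neg E _ hE => rw [map_neg, hE, neg_zero]

variable [NeZero N]

/-- **Equivariance of reduction on degree zero.** -/
theorem redDiv_smul (σ : Qb ≃ₐ[ℚ] Qb) (hσ : ∀ a : Qb, a ∈ A → σ a ∈ A) (φ : k ≃+* k)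
    (hφ : ∀ a : A, φ (residue A a) = residue A ⟨σ a, hσ a a.2⟩) {D : Divisor Qb Eb}
    (hD : Divisor.degree D = 0) :
    redDiv h (arithmeticGalois (L := Qb) (ModularCurve.modularFunctionFieldFull N) σ • D) =
      coeffAut N φ • redDiv h D := by
  classical
  have := Red.isFF_bar N
  let g := arithmeticGalois (L := Qb) (ModularCurve.modularFunctionFieldFull N) σ
  have hex : ∃ δ : Divisor Qb Eb →+ Divisor k Fb,
      ∀ D, δ D = redDiv h (g • D) - coeffAut N φ • redDiv h D :=
    ⟨(redDiv h).comp (DistribSMul.toAddMonoidHom (Divisor Qb Eb) g) -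
      (DistribSMul.toAddMonoidHom (Divisor k Fb) (coeffAut N φ)).comp (redDiv h), fun D => rfl⟩
  refine hex.elim fun δ hδ => sub_eq_zero.mp ((hδ D).symm.trans ?_)
  refine eq_zero_of_bounded δ 2 (fun P Q => ?_) (fun D hD => eq_zero_of_integral h δ ?_ hD) hD
  · exact abs_sub_single_le (hδ _)
      ((congrArg (redDiv h) (SemilinearAut.smul_single g P 1)).trans (redDiv_single h _ 1))
      ((congrArg (coeffAut N φ • ·) (redDiv_single h P 1)).trans
        (SemilinearAut.smul_single (coeffAut N φ) _ 1)) Q
  · intro s hs hsk hne D hD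
    refine (hδ D).trans (sub_eq_zero.mpr ?_)
    ext Q
    let s' : LaurentSeries A := coeffMap (RingHom.codRestrict
      ((σ : Qb →+* Qb).comp A.subtype) A.toSubring fun a => hσ a a.2) s
    have hs'def : s' = coeffMap (RingHom.codRestrict
      ((σ : Qb →+* Qb).comp A.subtype) A.toSubring fun a => hσ a a.2) s := rfl
    have hs' : coeffMap A.subtype s' = coeffMap (σ : Qb →+* Qb) (coeffMap A.subtype s) := by
      rw [hs'def, ModularCurve.coeffMap_coeffMap, ModularCurve.coeffMap_coeffMap]
      rfl
    have hres : coeffMap (residue A) s' = coeffMap (φ : k →+* k) (coeffMap (residue A) s) := by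
      rw [hs'def, ModularCurve.coeffMap_coeffMap, ModularCurve.coeffMap_coeffMap]
      exact ModularCurve.coeffMap_congr (RingHom.ext fun a => (hφ a).symm) s
    have hmem : coeffMap A.subtype s' ∈ Eb := by
      rw [hs']; exact ModularCurve.coeffMap_mem_laurentBaseChange σ hs
    have hmemk : coeffMap (residue A) s' ∈ Fb := by
      rw [hres]; exact coeffMap_mem_fullC N _ hsk
    have hne' : coeffMap (residue A) s' ≠ 0 := by
      rw [hres]
      exact fun h0 => hne ((coeffMap (φ : k →+* k)).injective (h0.trans (map_zero _).symm))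
    refine (redDiv_apply_ord h hmem hmemk hne' (D := g • D) (fun P => ?_) Q).trans ?_
    · exact (divisor_smul_apply_ord g hD P).trans (congrArg P.ord (Subtype.ext hs'.symm))
    · exact Eq.trans (congrArg Q.ord (Subtype.ext hres))
        (divisor_smul_apply_ord (coeffAut N φ) (fun R => redDiv_apply_ord h hs hsk hne hD R) Q).symm

end FermatAgent.Curve.EichlerShimura
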