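import Fermat.Agent.Curve.EichlerShimura.Norm
import Fermat.Agent.Curve.EichlerShimura.Galois
import Mathlib.RingTheory.PowerSeries.Expand

/-!
# The reduction of the norm of `y (ℓ τ)`

Modulo a prime above `ℓ` every `ℓ`-th root of unity is `1`, and an `ℓ`-th power is the substitution
`q ↦ q ^ ℓ` applied to the Frobenius twist.
-/

set_option autoImplicit false

noncomputable section

open AlgebraicCurve IsLocalRing
open ModularCurve (coeffMap qExpand modularFunctionFieldBar)

namespace FermatAgent.Curve.EichlerShimura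

local notation "Qb" => AlgebraicClosure ℚ

section Power

variable {R : Type*} [Field R] (p : ℕ) [hp : Fact p.Prime] [CharP R p]

/-- A `p`-th power in characteristic `p`. -/
theorem pow_char_eq_qExpand (x : LaurentSeries R) :
    x ^ p = qExpand R p (coeffMap (frobenius R p) x) := by
  have : ExpChar R p := ExpChar.prime hp.out
  have key : ∀ f : PowerSeries R, (HahnSeries.ofPowerSeries ℤ R f) ^ p =
      qExpand R p (coeffMap (frobenius R p) (HahnSeries.ofPowerSeries ℤ R f)) := by
    intro f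
    have h : (PowerSeries.expand p hp.out.ne_zero f).map (frobenius R p) = f ^ p :=
      MvPowerSeries.map_frobenius_expand (σ := Unit) p hp.out.ne_zero
    rw [← map_pow, ← h, ModularCurve.coeffMap_ofPowerSeries]
    ext j
    have hp0 : (0 : ℤ) < p := by exact_mod_cast hp.out.pos
    rcases lt_or_ge j 0 with hj | hj
    · rw [PowerSeries.coeff_coe, if_pos hj]
      by_cases hd : (p : ℤ) ∣ j
      · obtain ⟨i, rfl⟩ := hd
        rw [ModularCurve.qExpand_coeff_mul]
        have hi : i < 0 := by nlinarith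
        rw [PowerSeries.coeff_coe, if_pos hi]
      · rw [ModularCurve.qExpand_coeff_of_not_dvd _ _ hd]
    · obtain ⟨m, rfl⟩ := Int.eq_ofNat_of_zero_le hj
      rw [HahnSeries.ofPowerSeries_apply_coeff, PowerSeries.coeff_map]
      by_cases hd : p ∣ m
      · obtain ⟨i, rfl⟩ := hd
        rw [PowerSeries.coeff_expand_mul, Nat.cast_mul, ModularCurve.qExpand_coeff_mul,
          HahnSeries.ofPowerSeries_apply_coeff, PowerSeries.coeff_map]
      · rw [PowerSeries.coeff_expand_of_not_dvd _ _ _ hd, map_zero,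
          ModularCurve.qExpand_coeff_of_not_dvd _ _ fun h => hd (Int.natCast_dvd_natCast.mp h)]
  obtain ⟨⟨f, s⟩, hs⟩ := IsLocalization.surj (Submonoid.powers (PowerSeries.X : PowerSeries R)) x
  have hs0 : algebraMap (PowerSeries R) (LaurentSeries R) s ≠ 0 :=
    (IsLocalization.map_units (LaurentSeries R) s).ne_zero
  rw [← mul_left_inj' (pow_ne_zero p hs0), ← mul_pow, hs]
  rw [LaurentSeries.coe_algebraMap, key, key, ← map_mul, ← map_mul, ← LaurentSeries.coe_algebraMap,
    hs]

end Power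

section Lift

variable (A : ValuationSubring Qb)

/-- A series with coefficients in `A`. -/
def liftSeries (x : LaurentSeries Qb) (hx : ∀ j, x.coeff j ∈ A) : LaurentSeries A :=
  ⟨fun j => ⟨x.coeff j, hx j⟩,
    x.isPWO_support.mono fun _ hj h => hj (Subtype.ext h)⟩

theorem coeffMap_liftSeries (x : LaurentSeries Qb) (hx : ∀ j, x.coeff j ∈ A) :
    coeffMap A.subtype (liftSeries A x hx) = x := by
  ext j; rfl

/-- Series over `A` embed into series over `ℚ̄`. -/
theorem coeffMap_subtype_injective : Function.Injective (coeffMap A.subtype) := by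
  intro x y h
  ext j
  exact congrArg (fun f => HahnSeries.coeff f j) h

/-- `q ↦ u q` for a unit `u` of `A`. -/
def twistSeries (u : Aˣ) (s : LaurentSeries A) : LaurentSeries A :=
  ⟨fun j => ((u ^ j : Aˣ) : A) * s.coeff j,
    s.isPWO_support.mono fun _ hj h => hj (by simp [h])⟩

theorem coeffMap_twistSeries (u : Aˣ) {ζ : Qb} (hζ : ζ ≠ 0) (h : ((u : A) : Qb) = ζ)
    (s : LaurentSeries A) :
    coeffMap A.subtype (twistSeries A u s) = rotate hζ (coeffMap A.subtype s) := by
  ext j
  rw [ModularCurve.coeffMap_coeff, coeff_rotate, ModularCurve.coeffMap_coeff]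
  show A.subtype (((u ^ j : Aˣ) : A) * s.coeff j) = _
  rw [map_mul]
  congr 1
  rw [← h]
  calc A.subtype ((u ^ j : Aˣ) : A) = ((Units.map (A.subtype : A →* Qb) (u ^ j) : Qbˣ) : Qb) := rfl
    _ = _ := by rw [map_zpow, Units.val_zpow_eq_zpow_val]; rfl

theorem residue_twistSeries (u : Aˣ) (h : residue A (u : A) = 1) (s : LaurentSeries A) :
    coeffMap (residue A) (twistSeries A u s) = coeffMap (residue A) s := by
  ext j
  rw [ModularCurve.coeffMap_coeff, ModularCurve.coeffMap_coeff]
  show residue A (((u ^ j : Aˣ) : A) * s.coeff j) = _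
  have h1 : Units.map (residue A : A →* ResidueField A) u = 1 := Units.ext h
  have h2 : residue A ((u ^ j : Aˣ) : A) = 1 := by
    have h3 := congrArg Units.val (map_zpow (Units.map (residue A : A →* ResidueField A)) u j)
    rw [h1, one_zpow] at h3
    exact h3
  rw [map_mul, h2, one_mul]

end Lift

/-- An `ℓ`-th root of unity in `ℚ̄` corresponding to `exp (2πi/ℓ)`. -/
theorem exists_zeta (ℓ : ℕ) [NeZero ℓ] :
    ∃ ζ : Qb, Red.iotaC ζ = zC ℓ ∧ ζ ≠ 0 ∧ ζ ^ ℓ = 1 := by
  obtain ⟨z, hz⟩ := HasEnoughRootsOfUnity.exists_primitiveRoot Qb ℓ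
  have hpow : zC ℓ ^ ℓ = 1 := (Complex.isPrimitiveRoot_exp ℓ (NeZero.ne ℓ)).pow_eq_one
  obtain ⟨i, -, hi⟩ := (hz.map_of_injective Red.iotaC.injective).eq_pow_of_pow_eq_one hpow
  exact ⟨z ^ i, by rw [map_pow, hi], pow_ne_zero i (hz.ne_zero (NeZero.ne ℓ)),
    by rw [← pow_mul, mul_comm, pow_mul, hz.pow_eq_one, one_pow]⟩

/-- `qExpand_norm` for fields given as equal to the `j`-fields. -/
theorem qExpand_norm_of_eq {K : Type*} [Field K] [CharZero K] [IsAlgClosed K] [Algebra K ℂ]
    {N ℓ : ℕ} [NeZero N] [NeZero ℓ] [Fact ℓ.Prime] (hℓN : ¬ ℓ ∣ N)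
    {E E' : IntermediateField K (LaurentSeries K)} (hE : E = jField K N)
    (hE' : E' = jField K (N * ℓ)) (α β : E →ₐ[K] E')
    (hα : ∀ x, ((α x : E') : LaurentSeries K) = x)
    (hβ : ∀ x, ((β x : E') : LaurentSeries K) = qExpand K ℓ x) {ζ : K}
    (hζ : algebraMap K ℂ ζ = zC ℓ) (hζ0 : ζ ≠ 0) (y : E) :
    letI := algebraAlong α
    qExpand K ℓ ((Algebra.norm E (β y) : E) : LaurentSeries K) =
      qExpand K (ℓ * ℓ) (y : LaurentSeries K) *
        ∏ b : Fin ℓ, rotate (pow_ne_zero (b : ℕ) hζ0) (y : LaurentSeries K) := by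
  subst hE hE'
  exact qExpand_norm α β hα hβ hℓN hζ hζ0 y

variable {A : ValuationSubring Qb} {N ℓ : ℕ} [NeZero N] [hℓ : Fact ℓ.Prime]

/-- The residue field of a valuation ring over `ℓ` has characteristic `ℓ`. -/
theorem charP_residue (hA : A.LiesOverPrime ℓ) : CharP (ResidueField A) ℓ := by
  refine (CharP.charP_iff_prime_eq_zero hℓ.out).mpr ?_
  rw [← map_natCast (residue A) ℓ, IsLocalRing.residue_eq_zero_iff, IsLocalRing.mem_maximalIdeal,
    mem_nonunits_iff, A.valuation_eq_one_iff]
  exact (show A.valuation (ℓ : Qb) < 1 from A.mem_nonunits_iff.mp hA).ne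

/-- **The norm of `y (ℓ τ)` reduces to `φ y · (φ⁻¹ y) ^ ℓ`.** -/
theorem exists_norm_reduction (hA : A.LiesOverPrime ℓ) (hℓN : ¬ ℓ ∣ N)
    (φ : ResidueField A ≃+* ResidueField A) (hφ : ∀ x, φ x = x ^ ℓ)
    (s : LaurentSeries A) (hs : coeffMap A.subtype s ∈ modularFunctionFieldBar N) :
    letI := algebraAlong (ModularCurve.heckeAlphaBar Qb N ℓ)
    ∃ s' : LaurentSeries A,
      coeffMap A.subtype s' = ((Algebra.norm (modularFunctionFieldBar N)
        (ModularCurve.heckeBetaBar Qb N ℓ (⟨_, hs⟩ : modularFunctionFieldBar N)) :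
          modularFunctionFieldBar N) : LaurentSeries Qb) ∧
      coeffMap (residue A) s' =
        coeffMap (φ : ResidueField A →+* ResidueField A) (coeffMap (residue A) s) *
          coeffMap (φ.symm : ResidueField A →+* ResidueField A) (coeffMap (residue A) s) ^ ℓ := by
  let : Algebra Qb ℂ := Red.iotaC.toAlgebra
  let := algebraAlong (ModularCurve.heckeAlphaBar Qb N ℓ)
  have := charP_residue hA
  obtain ⟨ζ, hζ, hζ0, hζℓ⟩ := exists_zeta ℓ
  have key := qExpand_norm_of_eq (K := Qb) hℓN (modularFunctionFieldBar_eq_jField N)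
    (modularFunctionFieldBar_eq_jField (N * ℓ)) (ModularCurve.heckeAlphaBar Qb N ℓ)
    (ModularCurve.heckeBetaBar Qb N ℓ) (ModularCurve.coe_heckeAlphaBar N ℓ)
    (ModularCurve.coe_heckeBetaBar N ℓ) hζ hζ0 (⟨_, hs⟩ : modularFunctionFieldBar N)
  set n : LaurentSeries Qb := ((Algebra.norm (modularFunctionFieldBar N)
        (ModularCurve.heckeBetaBar Qb N ℓ (⟨_, hs⟩ : modularFunctionFieldBar N)) :
          modularFunctionFieldBar N) : LaurentSeries Qb) with hn
  have hζA : ζ ∈ A := by
    rcases A.mem_or_inv_mem ζ with h | h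
    · exact h
    · have h1 : ζ = ζ⁻¹ ^ (ℓ - 1) := by
        rw [inv_pow]
        refine eq_inv_of_mul_eq_one_left ?_
        rw [← pow_succ', Nat.sub_add_cancel hℓ.out.one_lt.le, hζℓ]
      rw [h1]
      exact pow_mem h _
  have huℓ : (⟨ζ, hζA⟩ : A) ^ ℓ = 1 := Subtype.ext hζℓ
  set u : Aˣ := Units.ofPowEqOne _ _ huℓ hℓ.out.ne_zero with hu
  have hu1 : residue A (u : A) = 1 := by
    apply φ.injective
    rw [hφ, map_one, ← map_pow]
    exact (congrArg (residue A) huℓ).trans (map_one _)
  set t : LaurentSeries A := qExpand A (ℓ * ℓ) s *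
    ∏ b : Fin ℓ, twistSeries A (u ^ (b : ℕ)) s with ht
  have ht1 : coeffMap A.subtype t = qExpand Qb ℓ n := by
    rw [key, ht, map_mul, ModularCurve.coeffMap_qExpand, map_prod]
    congr 1
    refine Finset.prod_congr rfl fun b _ => ?_
    exact coeffMap_twistSeries A _ (pow_ne_zero (b : ℕ) hζ0) (by push_cast; rfl) s
  have hnA : ∀ j, n.coeff j ∈ A := fun j => by
    rw [← ModularCurve.qExpand_coeff_mul ℓ n j, ← ht1, ModularCurve.coeffMap_coeff]
    exact SetLike.coe_mem _
  refine ⟨liftSeries A n hnA, coeffMap_liftSeries A n hnA, ?_⟩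
  have ht2 : qExpand A ℓ (liftSeries A n hnA) = t := coeffMap_subtype_injective A (by
    rw [ModularCurve.coeffMap_qExpand, coeffMap_liftSeries, ht1])
  set x := coeffMap (residue A) s with hx
  have hfrob : (φ : ResidueField A →+* ResidueField A) = frobenius (ResidueField A) ℓ :=
    RingHom.ext hφ
  refine ModularCurve.qExpand_injective ℓ ?_
  rw [← ModularCurve.coeffMap_qExpand, ht2, ht, map_mul, ModularCurve.coeffMap_qExpand, map_prod,
    Finset.prod_congr rfl (fun b _ => residue_twistSeries A (u ^ ((b : Fin ℓ) : ℕ))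
      (by rw [Units.val_pow_eq_pow_val, map_pow, hu1, one_pow]) s),
    Finset.prod_const, Finset.card_univ, Fintype.card_fin, ← hx, pow_char_eq_qExpand ℓ x,
    pow_char_eq_qExpand ℓ (coeffMap (φ.symm : ResidueField A →+* ResidueField A) x), ← hfrob,
    ModularCurve.coeffMap_coeffMap (φ : ResidueField A →+* ResidueField A)
      (φ.symm : ResidueField A →+* ResidueField A) x, φ.comp_symm, ModularCurve.coeffMap_id,
    map_mul, ModularCurve.qExpand_qExpand, mul_comm]

end FermatAgent.Curve.EichlerShimura
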