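import Fermat.Agent.Curve.EichlerShimura.Relation
import Fermat.Agent.S18

/-!
# The specialisation of `J₀(N)` at a good prime

The target is `J₀(N)` modulo the Hecke stable part of the kernel of reduction, and Frobenius acts
through an arbitrary Frobenius element; torsion prime to `ℓ` injects by S18.
-/

set_option autoImplicit false

noncomputable section

open AlgebraicCurve IsLocalRing
open ModularCurve (JZero JZeroC HeckeAlg heckeGen modularFunctionFieldBar modularFunctionFieldFullC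
  reductionModL reductionModL_mk)

namespace FermatAgent.Curve.EichlerShimura

attribute [local instance 10000] SubalgebraClass.toAlgebra
attribute [-instance] IsScalarTower.of_algHom RingHom.Finite.instFinite

local notation "Qb" => AlgebraicClosure ℚ

variable {A : ValuationSubring Qb} {N : ℕ}

local notation "k" => ResidueField A

/-- The residual automorphism of an element of the decomposition group. -/
def resAut {σ : Qb ≃ₐ[ℚ] Qb} (hσ : σ ∈ A.decompositionSubgroup ℚ) : k ≃+* k :=
  MulSemiringAction.toRingEquiv (A.decompositionSubgroup ℚ) k ⟨σ, hσ⟩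

theorem resAut_apply {σ : Qb ≃ₐ[ℚ] Qb} (hσ : σ ∈ A.decompositionSubgroup ℚ) (x : k) :
    resAut hσ x = (⟨σ, hσ⟩ : A.decompositionSubgroup ℚ) • x := rfl

theorem coeffAut_refl : coeffAut N (RingEquiv.refl k) = 1 :=
  Subtype.ext (Prod.ext (RingEquiv.ext fun _ => Subtype.ext (ModularCurve.coeffMap_id _)) rfl)

/-- Reduction intertwines the decomposition group with the residual automorphisms. -/
theorem reduction_smul [NeZero N] (h : ModularCurve.ReductionInputsModL A N) {σ : Qb ≃ₐ[ℚ] Qb}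
    (hσ : σ ∈ A.decompositionSubgroup ℚ) (z : JZero N) :
    reductionModL A N (σ • z) = coeffAut N (resAut hσ) • reductionModL A N z := by
  refine (Pic0.mk_surjective z).elim fun ⟨D, hD⟩ hz => ?_
  subst hz
  refine (reductionModL_mk h (SemilinearAut.degZeroSMulHom
    (ModularCurve.arithmeticGalois (L := Qb) (ModularCurve.modularFunctionFieldFull N) σ)
      ⟨D, hD⟩)).trans
    (Eq.trans ?_ (congrArg (coeffAut N (resAut hσ) • ·) (reductionModL_mk h ⟨D, hD⟩)).symm)
  refine congrArg Pic0.mk (Subtype.ext ?_)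
  exact redDiv_smul h σ (fun _ => GaloisBasic.apply_mem_of_decomposition hσ) _ (fun a => by
    rw [resAut_apply, ← IsLocalRing.ResidueField.residue_smul]
    rfl) (Divisor.mem_degZero.mp hD)

/-- **Eichler–Shimura on `J₀(N)`**: the reduction of `T_ℓ z` is `Frob z + ℓ Frob⁻¹ z`. -/
theorem reduction_hecke [NeZero N] {ℓ : ℕ} [hℓ : Fact ℓ.Prime] (hA : A.LiesOverPrime ℓ)
    (hℓN : ¬ ℓ ∣ N) (h : ModularCurve.ReductionInputsModL A N) (φ : k ≃+* k)
    (hφ : ∀ x, φ x = x ^ ℓ) (z : JZero N) :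
    reductionModL A N (ModularCurve.heckeOperatorBar N ⟨ℓ, hℓ.out⟩ z) =
      coeffAut N φ • reductionModL A N z + (ℓ : ℤ) • ((coeffAut N φ)⁻¹ • reductionModL A N z) := by
  have := Red.isFF_bar N
  have := Red.isFF_bar (N * ℓ)
  refine (Pic0.mk_surjective z).elim fun ⟨D, hD⟩ hz => ?_
  subst hz
  have hα : ModularCurve.HeckeAlphaBarIntegral Qb N ℓ := isIntegral_toRingHom _
  have hβ : ModularCurve.HeckeBetaBarIntegral Qb N ℓ := isIntegral_toRingHom _
  have hfin : FiniteAlong Qb (ModularCurve.heckeAlphaBar Qb N ℓ) := finiteAlong _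
  have hFI : FundamentalIdentityAlong Qb (ModularCurve.heckeBetaBar Qb N ℓ) hβ :=
    fundamentalIdentityAlong _ hβ (finiteAlong _)
  have hN : NormFormulaAlong Qb (ModularCurve.heckeAlphaBar Qb N ℓ) hfin :=
    normFormulaAlong _ hfin
  refine (congrArg (reductionModL A N) ((DFunLike.congr_fun
    (ModularCurve.heckeOperatorAlong_eq hα hβ hFI hfin hN) (Pic0.mk ⟨D, hD⟩)).trans
      (Pic0.correspondence_mk _ _ hβ hα hFI hfin hN ⟨D, hD⟩))).trans ?_
  refine (reductionModL_mk h _).trans (Eq.trans ?_ (congrArg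
    (fun w => coeffAut N φ • w + (ℓ : ℤ) • ((coeffAut N φ)⁻¹ • w))
    (reductionModL_mk h ⟨D, hD⟩)).symm)
  refine Eq.trans ?_ (congrArg (fun w => _ + w) (QuotientAddGroup.mk_zsmul _ _ (ℓ : ℤ)))
  refine congrArg Pic0.mk (Subtype.ext ?_)
  exact redDiv_heckeDiv h hA hℓN hα hβ hFI hfin hN φ hφ (Divisor.mem_degZero.mp hD)

/-- The Hecke stable part of the kernel of a map. -/
def heckeCore {J G : Type*} [AddCommGroup J] [AddCommGroup G] [Module HeckeAlg J] (f : J →+ G) :
    Submodule HeckeAlg J where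
  carrier := {x | ∀ t : HeckeAlg, f (t • x) = 0}
  zero_mem' t := by rw [smul_zero, map_zero]
  add_mem' hx hy t := by rw [smul_add, map_add, hx t, hy t, add_zero]
  smul_mem' c x hx t := by rw [smul_smul]; exact hx (t * c)

theorem map_smul_sub_eq_zero {R J G : Type*} [Ring R] [AddCommGroup J] [Module R J]
    [AddCommGroup G] (f : J →+ G) (t : R) {a b : J} (h : f (t • a) = f (t • b)) :
    f (t • (a - b)) = 0 := by
  rw [smul_sub, map_sub, h, sub_self]

theorem map_smul_relation {R J G : Type*} [Ring R] [AddCommGroup J] [Module R J] [AddCommGroup G]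
    (f : J →+ G) (t : R) (a b c : J) (n : ℕ) {u v : G} (ha : f (t • a) = u)
    (hb : f (t • b) = u + (n : ℤ) • v) (hc : f (t • c) = v) :
    f (t • (a - b + n • c)) = 0 := by
  rw [smul_add, smul_sub, smul_comm t n, map_add, map_sub, map_nsmul, ha, hb, hc, natCast_zsmul]
  abel

/-- **Specialisation exists.** -/
theorem specializationExists [NeZero N] (p : ℕ) (hcomm : ModularCurve.HeckeOperatorsCommuteBar N) :
    letI := ModularCurve.heckeModuleBar N
    ∀ (_ : SMulCommClass (Qb ≃ₐ[ℚ] Qb) HeckeAlg (JZero N)),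
      ModularCurve.SpecializationExists (K := ℚ) (L := Qb) N p (JZero N) := by
  let := ModularCurve.heckeModuleBar N
  intro _ ℓ hℓ hNp A hA
  have : Fact ℓ.Prime := ⟨hℓ⟩
  have hℓN : ¬ ℓ ∣ N := fun hd => hNp (hd.mul_right p)
  have h := Red.reductionInputsModL N hℓN A hA
  obtain ⟨σ₀, hσ₀⟩ := FermatAgent.GaloisBasic.exists_isFrobeniusAt hℓ hA
  set g := coeffAut N (resAut hσ₀.mem_decompositionSubgroup)
  let red : JZero N →+ JZeroC (ResidueField A) N := reductionModL A N
  let K₀ : Submodule HeckeAlg (JZero N) := heckeCore red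
  have hfrob : ∀ σ : Qb ≃ₐ[ℚ] Qb, A.IsFrobeniusAt σ ℓ → ∀ x, red (σ • x) = g • red x := by
    intro σ hσ x
    refine (reduction_smul h hσ.mem_decompositionSubgroup x).trans ?_
    congr 2
    exact RingEquiv.ext fun y => (hσ.smul_residue_eq y).trans (hσ₀.smul_residue_eq y).symm
  have hr : ∀ (σ : Qb ≃ₐ[ℚ] Qb), A.IsFrobeniusAt σ ℓ → ∀ (t : HeckeAlg) (x : JZero N),
      red (t • σ • x) = g • red (t • x) := fun σ hσ t x =>
    (congrArg red (smul_comm σ t x).symm).trans (hfrob σ hσ _)
  have hstab : K₀ ≤ K₀.comap (DistribSMul.toLinearMap HeckeAlg (JZero N) σ₀) := fun x hx t =>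
    (hr σ₀ hσ₀ t x).trans ((congrArg (g • ·) (hx t)).trans
      (smul_zero (A := JZeroC (ResidueField A) N) g))
  refine ⟨JZero N ⧸ K₀, inferInstance, inferInstance, K₀.mkQ.toAddMonoidHom,
    (K₀.mapQ K₀ _ hstab).toAddMonoidHom, ⟨fun T x => map_smul K₀.mkQ T x, ?_, ?_, ?_⟩, ?_⟩
  · intro σ hσ x
    refine (Submodule.Quotient.eq K₀).mpr fun t => ?_
    obtain ⟨⟨g', hg'⟩, hker, rfl⟩ := hσ
    have hid : resAut hg' = RingEquiv.refl _ := RingEquiv.ext fun y =>
      RingEquiv.congr_fun (MonoidHom.mem_ker.mp hker) y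
    refine map_smul_sub_eq_zero red t ?_
    refine (congrArg red (smul_comm g' t x).symm).trans ((reduction_smul h hg' _).trans ?_)
    exact (congrArg (fun e : ResidueField A ≃+* ResidueField A =>
      coeffAut N e • red (t • x)) hid).trans
      ((congrArg (· • red (t • x)) coeffAut_refl).trans (one_smul _ (red (t • x))))
  · intro σ hσ x
    refine (Submodule.Quotient.eq K₀).mpr fun t => ?_
    exact map_smul_sub_eq_zero red t ((hr σ hσ t x).trans (hr σ₀ hσ₀ t x).symm)
  · rintro x ⟨n, hn⟩ hx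
    have hmem : ∀ t : HeckeAlg, red (t • x) = 0 := (Submodule.Quotient.mk_eq_zero K₀).mp hx
    have h1 := hmem 1
    rw [one_smul] at h1
    refine Fermat.Agent.S18.result N hℓN A hA h (p ^ n) (fun hd => hNp ?_) x hn h1
    exact (hℓ.dvd_of_dvd_pow hd).mul_left N
  · intro y
    refine (Submodule.Quotient.mk_surjective K₀ y).elim fun x hx => ?_
    subst hx
    refine (Submodule.Quotient.mk_eq_zero K₀
      (x := σ₀ • σ₀ • x - heckeGen ⟨ℓ, hℓ⟩ • σ₀ • x + ℓ • x)).mpr fun t => ?_
    refine map_smul_relation red t _ _ x ℓ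
      ((hr σ₀ hσ₀ t _).trans (congrArg (g • ·) (hr σ₀ hσ₀ t x)))
      (((congrArg red ((smul_comm t (heckeGen ⟨ℓ, hℓ⟩) (σ₀ • x)).trans
          (ModularCurve.heckeModuleBar_heckeGen_smul hcomm ⟨ℓ, hℓ⟩ _))).trans
        (reduction_hecke hA hℓN h (resAut hσ₀.mem_decompositionSubgroup)
          hσ₀.smul_residue_eq (t • σ₀ • x))).trans
        (congrArg (fun w => g • w + (ℓ : ℤ) • (g⁻¹ • w)) (hr σ₀ hσ₀ t x)))
      (inv_smul_smul g (red (t • x))).symm

end FermatAgent.Curve.EichlerShimura
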