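import Fermat.Agent.Curve.EichlerShimura.Embeds
import Fermat.Agent.Curve.Extension
import Mathlib.FieldTheory.PrimitiveElement

/-!
# The norm along the degeneracy map of `y (ℓ τ)`

Its expansion, evaluated at `q ^ ℓ`, is `y (q ^ (ℓ ^ 2))` times the product of the `y (ζ ^ b q)`.
-/

set_option autoImplicit false

noncomputable section

open UpperHalfPlane hiding I
open AlgebraicCurve
open scoped MatrixGroups
open CongruenceSubgroup (Gamma0)
open ModularCurve (qExpand jqModC coeffMap)

namespace FermatAgent.Curve.EichlerShimura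

attribute [local instance 10000] SubalgebraClass.toAlgebra

/-- A complete family of embeddings computes the norm. -/
theorem norm_eq_prod_of_family {F L Ω : Type*} [Field F] [CharZero F] [Field L] [Algebra F L]
    [FiniteDimensional F L] [Field Ω] [Algebra F Ω] [IsAlgClosed Ω] {ι : Type*} [Fintype ι]
    (σ : ι → L →ₐ[F] Ω) (hinj : Function.Injective σ)
    (hcard : Module.finrank F L = Fintype.card ι) (x : L) :
    algebraMap F Ω (Algebra.norm F x) = ∏ i, σ i x := by
  rw [Algebra.norm_eq_prod_embeddings]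
  have hbij : Function.Bijective σ :=
    (Fintype.bijective_iff_injective_and_card σ).mpr ⟨hinj, by rw [AlgHom.card, hcard]⟩
  exact (hbij.prod_comp fun τ => τ x).symm

variable (N ℓ : ℕ) [NeZero N] [NeZero ℓ]

/-- The index of a divisor of `N` among those of `N ℓ`. -/
def idxUp (d : JIdx N) : JIdx (N * ℓ) :=
  ⟨(d : ℕ), Nat.mem_divisors.mpr ⟨d.dvd.trans (dvd_mul_right N ℓ), NeZero.ne _⟩⟩

/-- The index of `ℓ d` among the divisors of `N ℓ`. -/
def idxMul (d : JIdx N) : JIdx (N * ℓ) :=
  ⟨ℓ * (d : ℕ), Nat.mem_divisors.mpr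
    ⟨mul_comm (d : ℕ) ℓ ▸ Nat.mul_dvd_mul_right d.dvd ℓ, NeZero.ne _⟩⟩

/-- The expansions of `j (ℓ τ)` at the translates are distinct: their coefficients of
`q ^ (-N)` differ. -/
theorem expansions_injective [hℓ : Fact ℓ.Prime] : Function.Injective fun i : Option (Fin ℓ) =>
    i.elim (qExpand ℂ (N * ℓ) (qExpand ℂ ℓ (jqModC ℂ)))
      fun b => qExpand ℂ N (rotate (pow_ne_zero (b : ℕ) (zC_ne_zero ℓ)) (jqModC ℂ)) := by
  intro i i' h
  have hlow : ∀ b : Fin ℓ, (qExpand ℂ N (rotate (pow_ne_zero (b : ℕ) (zC_ne_zero ℓ))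
      (jqModC ℂ))).coeff (-(N : ℤ)) = (zC ℓ ^ (b : ℕ))⁻¹ := fun b => by
    rw [show -(N : ℤ) = (N : ℤ) * (-1) by ring, ModularCurve.qExpand_coeff_mul, coeff_rotate,
      ModularCurve.coeff_jqModC_neg_one, zpow_neg_one, mul_one]
  have hnone : (qExpand ℂ (N * ℓ) (qExpand ℂ ℓ (jqModC ℂ))).coeff (-(N : ℤ)) = 0 := by
    rw [ModularCurve.qExpand_coeff_of_not_dvd]
    rintro ⟨c, hc'⟩
    have h2 : (ℓ : ℤ) ∣ 1 := ⟨-c, by
      refine mul_left_cancel₀ (Nat.cast_ne_zero.mpr (NeZero.ne N) : (N : ℤ) ≠ 0) ?_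
      push_cast at hc'
      linear_combination -hc'⟩
    exact hℓ.out.one_lt.ne' (Nat.eq_one_of_dvd_one (by exact_mod_cast h2))
  have h1 := congrArg (fun f => HahnSeries.coeff f (-(N : ℤ))) h
  rcases i with _ | b <;> rcases i' with _ | b' <;>
    simp only [Option.elim, hlow, hnone] at h1
  · rfl
  · exact absurd h1.symm (inv_ne_zero (pow_ne_zero _ (zC_ne_zero ℓ)))
  · exact absurd h1 (inv_ne_zero (pow_ne_zero _ (zC_ne_zero ℓ)))
  · exact congrArg some (Fin.ext ((Complex.isPrimitiveRoot_exp ℓ (NeZero.ne ℓ)).pow_inj b.2 b'.2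
      (inv_inj.1 h1)))

variable {K : Type*} [Field K] [CharZero K] [Algebra K ℂ]

section Degeneracy

variable {N ℓ} (α β : jField K N →ₐ[K] jField K (N * ℓ))
  (hα : ∀ x, ((α x : jField K (N * ℓ)) : LaurentSeries K) = x)
  (hβ : ∀ x, ((β x : jField K (N * ℓ)) : LaurentSeries K) = qExpand K ℓ x)

section

omit [CharZero K]

include hα in
omit [Algebra K ℂ] in
theorem alpha_genElt (d : JIdx N) : α (genElt K N d) = genElt K (N * ℓ) (idxUp N ℓ d) :=
  Subtype.ext (by rw [hα, coe_genElt, coe_genElt]; rfl)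

include hβ in
omit [Algebra K ℂ] in
theorem beta_genElt (d : JIdx N) : β (genElt K N d) = genElt K (N * ℓ) (idxMul N ℓ d) :=
  Subtype.ext (by
    rw [hβ, coe_genElt, coe_genElt, ModularCurve.qExpand_qExpand]
    rfl)

/-- The expansion at infinity in the coordinate of width `M`. -/
def infMap (M : ℕ) [NeZero M] (E : IntermediateField K (LaurentSeries K)) :
    E →ₐ[K] LaurentSeries ℂ :=
  (qExpC K M).comp ((coeffMapC K).comp E.val)

theorem infMap_genElt (d : JIdx N) :
    infMap (N * ℓ) (jField K N) (genElt K N d) =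
      qExpand ℂ (N * ℓ) (qExpand ℂ (d : ℕ) (jqModC ℂ)) := by
  rw [infMap, AlgHom.comp_apply, AlgHom.comp_apply, IntermediateField.coe_val, coe_genElt,
    coeffMapC_qExpand_jqModC, qExpC_apply]

theorem emb_one_eq :
    emb (K := K) (genCoord_qw (N * ℓ)) (1 : SL(2, ℤ)) = infMap (N * ℓ) (jField K (N * ℓ)) := by
  refine algHom_ext_genElt K fun e => ?_
  rw [emb_genElt (genCoord_qw (N * ℓ)) 1 e ((hasLoc_jFun_scalePt (e : ℕ) (N * ℓ)).congr_fun
    fun τ => by rw [one_smul]), infMap, AlgHom.comp_apply, AlgHom.comp_apply,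
    IntermediateField.coe_val, coe_genElt, coeffMapC_qExpand_jqModC, qExpC_apply]

include hα in
theorem emb_alpha {g : SL(2, ℤ)} (hg : g ∈ Gamma0 N) :
    (emb (K := K) (genCoord_qw (N * ℓ)) g).comp α = infMap (N * ℓ) (jField K N) := by
  refine algHom_ext_genElt K fun d => ?_
  rw [AlgHom.comp_apply, alpha_genElt α hα, infMap_genElt]
  have h0 : ∀ τ : ℍ, jFun (scalePt (idxUp N ℓ d : ℕ) (g • τ)) = jFun (scalePt (d : ℕ) τ) := by
    intro τ
    have h1 := jGenF_gamma0 hg d τ
    simp only [jGenF] at h1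
    exact h1
  exact emb_genElt (genCoord_qw (N * ℓ)) g (idxUp N ℓ d)
    ((hasLoc_jFun_scalePt (d : ℕ) (N * ℓ)).congr_fun h0)

include hβ in
theorem emb_beta {g γ : SL(2, ℤ)} {b : ℕ} (hγ : γ ∈ Gamma0 N)
    (h : ∀ τ : ℍ, scalePt ℓ (g • τ) = γ • affinePt 1 ℓ b τ) :
    (emb (K := K) (genCoord_qw (N * ℓ)) g).comp β =
      (qExpC K N).comp ((rotC K (pow_ne_zero b (zC_ne_zero ℓ))).comp
        ((coeffMapC K).comp (jField K N).val)) := by
  refine algHom_ext_genElt K fun d => ?_
  rw [AlgHom.comp_apply, beta_genElt β hβ, AlgHom.comp_apply, AlgHom.comp_apply, AlgHom.comp_apply,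
    IntermediateField.coe_val, coe_genElt, coeffMapC_qExpand_jqModC, qExpC_apply, rotC_apply]
  have h0 : ∀ τ : ℍ, jFun (scalePt (idxMul N ℓ d : ℕ) (g • τ)) =
      jFun (scalePt (d : ℕ) (affinePt 1 ℓ b τ)) := by
    intro τ
    have hd : scalePt (idxMul N ℓ d : ℕ) (g • τ) = scalePt (d : ℕ) (scalePt ℓ (g • τ)) :=
      UpperHalfPlane.ext (by
        rw [coe_scalePt, coe_scalePt, coe_scalePt]
        show ((ℓ * (d : ℕ) : ℕ) : ℂ) * _ = _
        push_cast
        ring)
    rw [hd, h]
    have h1 := jGenF_gamma0 hγ d (affinePt 1 ℓ b τ)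
    simp only [jGenF] at h1
    exact h1
  exact emb_genElt (genCoord_qw (N * ℓ)) g (idxMul N ℓ d)
    ((hasLoc_jFun_translate (d : ℕ) ℓ N b).congr_fun h0)

end

include hα in
/-- The degree of the degeneracy map. -/
theorem finrank_along [IsAlgClosed K] (hℓ : ℓ.Prime) (hcop : Nat.Coprime ℓ N) :
    letI := algebraAlong α
    Module.finrank (jField K N) (jField K (N * ℓ)) = ℓ + 1 := by
  let := algebraAlong α
  let : Module (jField K N) (jField K (N * ℓ)) := Algebra.toModule
  have := isScalarTower_along α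
  have : Module.Finite (jField K N) (jField K (N * ℓ)) := finiteAlong α
  have hj : algebraMap (jField K N) (jField K (N * ℓ)) (jElt K N) = jElt K (N * ℓ) :=
    Subtype.ext ((hα _).trans ((coe_jElt K N).trans (coe_jElt K (N * ℓ)).symm))
  have h1 := finrank_adjoin_algebraMap (K := K) (F' := jField K (N * ℓ)) (x := jElt K N)
  rw [hj, finrank_jField, finrank_jField, card_cosets, card_cosets,
    dedekindPsi_mul_prime hℓ hcop] at h1
  refine (mul_left_cancel₀ ?_ h1).symm
  rw [← card_cosets]
  exact Fintype.card_ne_zero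

include hα hβ in
/-- **The norm of `y (ℓ τ)`.** -/
theorem qExpand_norm [IsAlgClosed K] [hℓ : Fact ℓ.Prime] (hℓN : ¬ ℓ ∣ N) {ζ : K}
    (hζ : algebraMap K ℂ ζ = zC ℓ) (hζ0 : ζ ≠ 0) (y : jField K N) :
    letI := algebraAlong α
    qExpand K ℓ ((Algebra.norm (jField K N) (β y) : jField K N) : LaurentSeries K) =
      qExpand K (ℓ * ℓ) (y : LaurentSeries K) *
        ∏ b : Fin ℓ, rotate (pow_ne_zero (b : ℕ) hζ0) (y : LaurentSeries K) := by
  classical
  have hcop : Nat.Coprime ℓ N := (Nat.Prime.coprime_iff_not_dvd hℓ.out).mpr hℓN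
  choose g γ hg hγ hgγ using fun b : Fin ℓ => exists_translate N ℓ hcop (b : ℕ)
  set hc := genCoord_qw (N * ℓ)
  let gi : Option (Fin ℓ) → SL(2, ℤ) := fun i => i.elim 1 g
  have hgi : ∀ i, gi i ∈ Gamma0 N := by
    rintro (_ | b)
    exacts [one_mem _, hg b]
  let := algebraAlong α
  let : Module (jField K N) (jField K (N * ℓ)) := Algebra.toModule
  have := isScalarTower_along α
  have : Module.Finite (jField K N) (jField K (N * ℓ)) := finiteAlong α
  have : CharZero (jField K N) := charZero_of_injective_algebraMap (algebraMap K _).injective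
  set Ω := AlgebraicClosure (LaurentSeries ℂ)
  let : Algebra (jField K N) Ω :=
    ((algebraMap (LaurentSeries ℂ) Ω).comp
      (infMap (N * ℓ) (jField K N)).toRingHom).toAlgebra
  let σ : Option (Fin ℓ) → jField K (N * ℓ) →ₐ[jField K N] Ω := fun i =>
    { toRingHom := (algebraMap (LaurentSeries ℂ) Ω).comp (emb (K := K) hc (gi i)).toRingHom
      commutes' := fun x => congrArg (algebraMap (LaurentSeries ℂ) Ω)
        (DFunLike.congr_fun (emb_alpha α hα (hgi i)) x) }
  -- the images of `β`
  have hnone : ∀ x, emb (K := K) hc (gi none) (β x) =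
      qExpand ℂ (N * ℓ) (qExpand ℂ ℓ (coeffMapC K (x : LaurentSeries K))) := fun x => by
    show emb (K := K) hc 1 (β x) = _
    rw [emb_one_eq, infMap, AlgHom.comp_apply, AlgHom.comp_apply, IntermediateField.coe_val, hβ,
      qExpC_apply, coeffMapC_apply, coeffMapC_apply, ModularCurve.coeffMap_qExpand]
  have hsome : ∀ (b : Fin ℓ) x, emb (K := K) hc (gi (some b)) (β x) =
      qExpand ℂ N (rotate (pow_ne_zero (b : ℕ) (zC_ne_zero ℓ))
        (coeffMapC K (x : LaurentSeries K))) := fun b x =>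
    DFunLike.congr_fun (emb_beta β hβ (hγ b) (hgγ b)) x
  have hinj : Function.Injective σ := fun i i' h => expansions_injective N ℓ <| by
    have h1 : emb (K := K) hc (gi i) (β (genElt K N (JIdx.one N))) =
        emb (K := K) hc (gi i') (β (genElt K N (JIdx.one N))) :=
      (algebraMap (LaurentSeries ℂ) Ω).injective (DFunLike.congr_fun h _)
    have hJ : coeffMapC K ((genElt K N (JIdx.one N) : jField K N) : LaurentSeries K) =
        jqModC ℂ := by
      rw [coe_genElt, coeffMapC_qExpand_jqModC]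
      exact ModularCurve.qExpand_one_apply _
    rcases i with _ | b <;> rcases i' with _ | b' <;>
      first | rfl | simpa only [hnone, hsome, hJ, Option.elim] using h1
  have hcard : Module.finrank (jField K N) (jField K (N * ℓ)) = Fintype.card (Option (Fin ℓ)) := by
    rw [Fintype.card_option, Fintype.card_fin]
    exact finrank_along α hα hℓ.out hcop
  have key := norm_eq_prod_of_family σ hinj hcard (β y)
  rw [Fintype.prod_option] at key
  -- descend
  refine ((ModularCurve.qExpand_injective N).comp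
    (show Function.Injective (coeffMapC K) from RingHom.injective (coeffMapC K).toRingHom)) ?_
  refine (algebraMap (LaurentSeries ℂ) Ω).injective ?_
  have hL : qExpand ℂ N (coeffMapC K (qExpand K ℓ ((Algebra.norm (jField K N) (β y) :
      jField K N) : LaurentSeries K))) =
      infMap (N * ℓ) (jField K N) (Algebra.norm (jField K N) (β y)) := by
    rw [infMap, AlgHom.comp_apply, AlgHom.comp_apply, IntermediateField.coe_val, qExpC_apply,
      coeffMapC_apply, coeffMapC_apply, ModularCurve.coeffMap_qExpand, ModularCurve.qExpand_qExpand]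
  simp only [Function.comp_apply]
  rw [hL]
  refine key.trans ?_
  show algebraMap (LaurentSeries ℂ) Ω (emb (K := K) hc (gi none) (β y)) *
    ∏ b, algebraMap (LaurentSeries ℂ) Ω (emb (K := K) hc (gi (some b)) (β y)) = _
  rw [hnone, map_mul (coeffMapC K), map_mul (qExpand ℂ N), map_mul, map_prod, map_prod, map_prod]
  congr 1
  · rw [coeffMapC_apply, coeffMapC_apply, ModularCurve.coeffMap_qExpand,
      ModularCurve.qExpand_qExpand, ModularCurve.qExpand_qExpand]
    congr 2
    simp only [mul_assoc]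
  · refine Finset.prod_congr rfl fun b _ => ?_
    rw [hsome, coeffMapC_apply, coeffMapC_apply, coeffMap_rotate]
    congr 2
    exact rotate_congr _ _ (by rw [map_pow, hζ]) _

end Degeneracy

end FermatAgent.Curve.EichlerShimura
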