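import Fermat.Agent.Curve.EichlerShimura.Frobenius
import Fermat.Prelude.Def_ModularCurve_HeckeModule

/-!
# The Eichler–Shimura relation

The Hecke correspondence at `ℓ` reduces to `Frobenius + ℓ · Frobenius⁻¹` on the reduction of
`X₀(N)` at a prime above `ℓ`.
-/

set_option autoImplicit false

noncomputable section

open AlgebraicCurve IsLocalRing
open ModularCurve (coeffMap modularFunctionFieldBar modularFunctionFieldFullC heckeAlphaBar
  heckeBetaBar placeReductionModL reductionModL isPlaceReductionModL_placeReductionModL)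

namespace FermatAgent.Curve.EichlerShimura

attribute [local instance 10000] SubalgebraClass.toAlgebra
attribute [-instance] IsScalarTower.of_algHom RingHom.Finite.instFinite

local notation "Qb" => AlgebraicClosure ℚ

/-- The divisor of a function is carried by a correspondence to that of the norm. -/
theorem correspondence_apply_ord {K F F' : Type*} [Field K] [Field F] [Field F'] [Algebra K F]
    [Algebra K F'] [HasPrincipalDivisors K F'] (φ ψ : F →ₐ[K] F') (hφ : φ.toRingHom.IsIntegral)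
    (hψ : ψ.toRingHom.IsIntegral) (hfin : FiniteAlong K ψ) (hN : NormFormulaAlong K ψ hfin)
    {y : F} (hy : y ≠ 0) {D : Divisor K F} (hD : ∀ v, D v = v.ord y) (v : Place K F) :
    letI := algebraAlong ψ
    Divisor.correspondence φ ψ hφ hψ D v = v.ord (Algebra.norm F (φ y)) := by
  have hE : ∀ w, Divisor.pullbackAlong φ hφ D w = w.ord (φ y) := fun w => by
    rw [Divisor.pullbackAlong_apply, hD, Place.ord_restrictAlong φ hφ]
  let := algebraAlong ψ
  have := isScalarTower_along ψ
  have := isIntegral_along ψ hψ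
  have : Module.Finite F F' := hfin
  exact hN (φ y) ((_root_.map_ne_zero φ).mpr hy) _ hE v

/-- The value of the divisor of `g y * (g⁻¹ y) ^ n`. -/
theorem apply_eq_of_ord_mul {K F : Type*} [Field K] [Field F] [Algebra K F]
    (g : SemilinearAut K F) {y : F} {a e : Divisor K F} (ha : ∀ R, a R = R.ord y) (hy : y ≠ 0)
    {n : ℕ} {Q : Place K F} (he : e Q = Q.ord (g • y * (g⁻¹ • y) ^ n)) :
    e Q = (g • a + (n : ℤ) • (g⁻¹ • a)) Q := by
  have h1 : g • y ≠ 0 := (smul_ne_zero_iff_ne g).mpr hy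
  have h2 : g⁻¹ • y ≠ 0 := (smul_ne_zero_iff_ne g⁻¹).mpr hy
  rw [he, Finsupp.add_apply, Finsupp.smul_apply, divisor_smul_apply_ord g ha,
    divisor_smul_apply_ord g⁻¹ ha, Place.ord_mul _ h1 (pow_ne_zero n h2), ← zpow_natCast,
    Place.ord_zpow, smul_eq_mul]

/-- The bound at a point for a correspondence minus two translates of a point. -/
theorem abs_apply_le_of_single {K F : Type*} [Field K] [Field F] [Algebra K F]
    (g : SemilinearAut K F) {x E r : Divisor K F} {v : Place K F} (Q : Place K F) {l B : ℤ}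
    (hx : x = E - (g • r + l • (g⁻¹ • r))) (hr : r = Finsupp.single v 1) (h0 : 0 ≤ E Q)
    (h1 : E Q ≤ B) (hl : 0 ≤ l) : |x Q| ≤ B + 1 + l := by
  classical
  subst hx hr
  rw [SemilinearAut.smul_single, SemilinearAut.smul_single, Finsupp.sub_apply, Finsupp.add_apply,
    Finsupp.smul_apply, smul_eq_mul, Finsupp.single_apply, Finsupp.single_apply, abs_le]
  split_ifs <;> constructor <;> linarith

/-- A correspondence carries a place to an effective divisor. -/
theorem correspondence_single_nonneg {K F F' : Type*} [Field K] [Field F] [Field F'] [Algebra K F]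
    [Algebra K F'] [HasPrincipalDivisors K F'] (φ ψ : F →ₐ[K] F') (hφ : φ.toRingHom.IsIntegral)
    (hψ : ψ.toRingHom.IsIntegral) (v : Place K F) :
    0 ≤ Divisor.correspondence φ ψ hφ hψ (Finsupp.single v 1) := by
  rw [Divisor.correspondence_apply, Divisor.pullbackAlong_single, map_sum]
  refine Finset.sum_nonneg fun W _ => ?_
  rw [Divisor.pushforwardAlong_single]
  exact Finsupp.single_nonneg.2 (by positivity)

variable {A : ValuationSubring Qb} {N ℓ : ℕ} [NeZero N] [hℓ : Fact ℓ.Prime]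
  (h : ModularCurve.ReductionInputsModL A N)

local notation "k" => ResidueField A
local notation "Fb" => modularFunctionFieldFullC (ResidueField A) N
local notation "Eb" => modularFunctionFieldBar N

omit [NeZero N] in
theorem redDiv_nonneg {D : Divisor Qb Eb} (hD : 0 ≤ D) : 0 ≤ redDiv h D := by
  conv_rhs => rw [← Finsupp.sum_single D]
  rw [map_finsuppSum]
  refine Finset.sum_nonneg fun P _ => ?_
  show 0 ≤ redDiv h (Finsupp.single P (D P))
  rw [redDiv_single]
  exact Finsupp.single_nonneg.2 (hD P)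

omit [NeZero N] in
theorem degree_redDiv (D : Divisor Qb Eb) :
    Divisor.degree (redDiv h D) = Divisor.degree D :=
  ModularCurve.degree_mapDomain_of_deg_eq (isPlaceReductionModL_placeReductionModL h).1 D

/-- The divisor of the reduced norm. -/
theorem redDiv_norm (hA : A.LiesOverPrime ℓ) (hℓN : ¬ ℓ ∣ N) (φ : k ≃+* k)
    (hφ : ∀ x, φ x = x ^ ℓ) (s : LaurentSeries A) (hs : coeffMap A.subtype s ∈ Eb)
    (hsk : coeffMap (residue A) s ∈ Fb) (hne : coeffMap (residue A) s ≠ 0) {D E : Divisor Qb Eb}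
    (hD : ∀ P, D P = P.ord (⟨coeffMap A.subtype s, hs⟩ : Eb))
    (hE : ∀ P : Place Qb Eb, E P = P.ord (letI := algebraAlong (heckeAlphaBar Qb N ℓ)
      (Algebra.norm Eb (heckeBetaBar Qb N ℓ (⟨coeffMap A.subtype s, hs⟩ : Eb)) : Eb))) :
    redDiv h E = coeffAut N φ • redDiv h D + (ℓ : ℤ) • ((coeffAut N φ)⁻¹ • redDiv h D) := by
  ext Q
  refine (exists_norm_reduction hA hℓN φ hφ s hs).elim fun s' hs'res => ?_
  have hs' := hs'res.1
  have hres := hs'res.2
  have hmem : coeffMap A.subtype s' ∈ Eb := by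
    rw [hs']; exact SetLike.coe_mem _
  let g := coeffAut N φ
  let y : Fb := ⟨coeffMap (residue A) s, hsk⟩
  have hy0 : y ≠ 0 := fun h0 => hne (congrArg Subtype.val h0)
  have h1 : g • y ≠ 0 := (smul_ne_zero_iff_ne g).mpr hy0
  have h2 : g⁻¹ • y ≠ 0 := (smul_ne_zero_iff_ne g⁻¹).mpr hy0
  have hval : coeffMap (residue A) s' = ((g • y * (g⁻¹ • y) ^ ℓ : Fb) : LaurentSeries k) :=
    hres.trans (congrArg₂ (· * ·) (coe_coeffAut_smul N φ y)
      (congrArg (· ^ ℓ) (coe_coeffAut_inv_smul N φ y))).symm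
  have hmemk : coeffMap (residue A) s' ∈ Fb :=
    (congrArg (· ∈ Fb) hval).mpr (SetLike.coe_mem _)
  have hne' : coeffMap (residue A) s' ≠ 0 := fun h0 =>
    mul_ne_zero h1 (pow_ne_zero ℓ h2) (Subtype.ext (hval.symm.trans h0))
  have hE' : ∀ P : Place Qb Eb, E P = P.ord (⟨coeffMap A.subtype s', hmem⟩ : Eb) := fun P =>
    (hE P).trans (congrArg P.ord (Subtype.ext hs'.symm))
  exact apply_eq_of_ord_mul g (fun R => redDiv_apply_ord h hs hsk hne hD R) hy0
    ((redDiv_apply_ord h hmem hmemk hne' hE' Q).trans (congrArg Q.ord (Subtype.ext hval)))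

variable [HasPrincipalDivisors Qb (modularFunctionFieldBar (N * ℓ))]

/-- **The Eichler–Shimura relation for divisors of degree zero.** -/
theorem redDiv_heckeDiv (hA : A.LiesOverPrime ℓ) (hℓN : ¬ ℓ ∣ N)
    (hα : ModularCurve.HeckeAlphaBarIntegral Qb N ℓ) (hβ : ModularCurve.HeckeBetaBarIntegral Qb N ℓ)
    (hFI : FundamentalIdentityAlong Qb (heckeBetaBar Qb N ℓ) hβ)
    (hfin : FiniteAlong Qb (heckeAlphaBar Qb N ℓ))
    (hN : NormFormulaAlong Qb (heckeAlphaBar Qb N ℓ) hfin)
    (φ : k ≃+* k) (hφ : ∀ x, φ x = x ^ ℓ) {D : Divisor Qb Eb} (hD : Divisor.degree D = 0) :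
    redDiv h (Divisor.correspondence (heckeBetaBar Qb N ℓ) (heckeAlphaBar Qb N ℓ) hβ hα D) =
      coeffAut N φ • redDiv h D + (ℓ : ℤ) • ((coeffAut N φ)⁻¹ • redDiv h D) := by
  classical
  have := Red.isFF_bar N
  have := isAlgClosed_residueField A
  have := Red.isFF_fullC hA (N := N) hℓN
  let g := coeffAut N φ
  let T := Divisor.correspondence (heckeBetaBar Qb N ℓ) (heckeAlphaBar Qb N ℓ) hβ hα
  have hex : ∃ δ : Divisor Qb Eb →+ Divisor k Fb, ∀ D, δ D =
      redDiv h (T D) - (g • redDiv h D + (ℓ : ℤ) • (g⁻¹ • redDiv h D)) :=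
    ⟨(redDiv h).comp T - ((DistribSMul.toAddMonoidHom (Divisor k Fb) g).comp (redDiv h) +
      (ℓ : ℤ) • (DistribSMul.toAddMonoidHom (Divisor k Fb) g⁻¹).comp (redDiv h)), fun D => rfl⟩
  refine hex.elim fun δ hδ => sub_eq_zero.mp ((hδ D).symm.trans ?_)
  refine eq_zero_of_bounded δ (finrankAlong Qb (heckeBetaBar Qb N ℓ) + 1 + ℓ) (fun P Q => ?_)
    (fun D hD => eq_zero_of_integral h δ ?_ hD) hD
  · have h0 : 0 ≤ redDiv h (T (Finsupp.single P 1)) :=
      redDiv_nonneg h (correspondence_single_nonneg _ _ hβ hα P)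
    have h1 : redDiv h (T (Finsupp.single P 1)) Q ≤ (finrankAlong Qb (heckeBetaBar Qb N ℓ) : ℤ) :=
      (apply_le_degree h0 Q).trans_eq ((degree_redDiv h _).trans
        ((Divisor.degree_correspondence _ _ hβ hα hFI _).trans (by
          rw [Divisor.degree_single, deg_eq_one, Nat.cast_one, mul_one, mul_one])))
    exact abs_apply_le_of_single g Q (hδ _) (redDiv_single h P 1) (h0 Q) h1 (Nat.cast_nonneg ℓ)
  · intro s hs hsk hne D hD
    refine (hδ D).trans (sub_eq_zero.mpr ?_)
    have hy' : (⟨coeffMap A.subtype s, hs⟩ : Eb) ≠ 0 := fun h0 => hne (by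
      rw [coeffMap_subtype_injective A ((congrArg Subtype.val h0).trans (map_zero _).symm),
        map_zero])
    exact redDiv_norm h hA hℓN φ hφ s hs hsk hne hD
      (correspondence_apply_ord _ _ hβ hα hfin hN hy' hD)

end FermatAgent.Curve.EichlerShimura
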