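import Fermat.Agent.Curve.ModularEmb
import Fermat.Prelude.Def_ModularCurve_X0ModL

/-!
# Rotations, expansions and coefficient maps of Laurent series

The algebra maps used to describe the embeddings of the degeneracy field.
-/

set_option autoImplicit false

noncomputable section

open scoped MatrixGroups
open ModularCurve (qExpand coeffMap)

namespace FermatAgent.Curve.EichlerShimura

variable {K : Type*} [Field K]

/-- A rotation passes through `q ↦ q ^ d` as its `d`-th power. -/
theorem rotate_qExpand {ζ : K} (hζ : ζ ≠ 0) (d : ℕ) [NeZero d] (x : LaurentSeries K) :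
    rotate hζ (qExpand K d x) = qExpand K d (rotate (pow_ne_zero d hζ) x) := by
  ext j
  by_cases hj : (d : ℤ) ∣ j
  · obtain ⟨i, rfl⟩ := hj
    rw [coeff_rotate, ModularCurve.qExpand_coeff_mul, ModularCurve.qExpand_coeff_mul, coeff_rotate,
      ← zpow_natCast ζ d, ← zpow_mul]
  · rw [coeff_rotate, ModularCurve.qExpand_coeff_of_not_dvd _ _ hj,
      ModularCurve.qExpand_coeff_of_not_dvd _ _ hj, mul_zero]

/-- Rotation depends only on the factor. -/
theorem rotate_congr {ζ ζ' : K} (hζ : ζ ≠ 0) (hζ' : ζ' ≠ 0) (h : ζ = ζ') (x : LaurentSeries K) :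
    rotate hζ x = rotate hζ' x := by subst h; rfl

/-- Coefficient maps commute with rotations. -/
theorem coeffMap_rotate {S : Type*} [Field S] (f : K →+* S) {ζ : K} (hζ : ζ ≠ 0)
    (x : LaurentSeries K) :
    coeffMap f (rotate hζ x) = rotate ((_root_.map_ne_zero f).mpr hζ) (coeffMap f x) := by
  ext j
  simp

variable (K) [Algebra K ℂ]

/-- `rotate` as an algebra map. -/
def rotC {c : ℂ} (hc : c ≠ 0) : LaurentSeries ℂ →ₐ[K] LaurentSeries ℂ where
  __ := rotate hc
  commutes' a := by
    show rotate hc (algebraMap K (LaurentSeries ℂ) a) = _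
    rw [algebraMap_laurent]
    ext j
    rw [coeff_rotate]
    rcases eq_or_ne j 0 with rfl | hj
    · simp
    · simp [HahnSeries.coeff_single_of_ne hj]

/-- `qExpand` as an algebra map. -/
def qExpC (m : ℕ) [NeZero m] : LaurentSeries ℂ →ₐ[K] LaurentSeries ℂ where
  __ := qExpand ℂ m
  commutes' a := by
    show qExpand ℂ m (algebraMap K (LaurentSeries ℂ) a) = _
    rw [algebraMap_laurent, ModularCurve.qExpand_single, mul_zero]

/-- `rotC` is `rotate`. -/
theorem rotC_apply {c : ℂ} (hc : c ≠ 0) (x : LaurentSeries ℂ) : rotC K hc x = rotate hc x := rfl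

/-- `qExpC` is `qExpand`. -/
theorem qExpC_apply (m : ℕ) [NeZero m] (x : LaurentSeries ℂ) : qExpC K m x = qExpand ℂ m x := rfl

/-- `coeffMapC` is `coeffMap`. -/
theorem coeffMapC_apply (x : LaurentSeries K) :
    coeffMapC K x = coeffMap (algebraMap K ℂ) x := rfl

end FermatAgent.Curve.EichlerShimura
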